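import Fermat.Agent.ToralEntropy.Growth
import Mathlib.Analysis.SpecialFunctions.Log.PosLog
import Mathlib.LinearAlgebra.Eigenspace.Triangularizable
import Mathlib.LinearAlgebra.Eigenspace.Zero
import Mathlib.Algebra.DirectSum.Module
import Mathlib.Analysis.Normed.Module.FiniteDimension
import Mathlib.Analysis.Complex.Polynomial.Basic

/-!
# Coordinates adapted to an endomorphism of `ℂ ^ ι`

A basis of generalised eigenvectors, with upper bounds for the orbit of each basis vector and for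
each coordinate of a point in terms of the two ends of its orbit.
-/

set_option autoImplicit false

noncomputable section

namespace FA.ToralEntropy

open Module Polynomial Real

variable {ι : Type*} [Fintype ι]

/-- **The adapted coordinates.** -/
theorem exists_eigen_coords (f : Module.End ℂ (ι → ℂ)) :
    ∃ (κ : Type) (_ : Fintype κ) (b : Basis κ ℂ (ι → ℂ)) (lam : κ → ℂ),
      (∑ p, log⁺ ‖lam p‖ = (f.charpoly.roots.map fun z => log⁺ ‖z‖).sum) ∧
      (∀ η : ℝ, 0 < η → ∃ C : ℝ, 0 < C ∧ ∀ (k : ℕ) (p : κ),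
        ‖(f ^ k) (b p)‖ ≤ C * exp (k * (log⁺ ‖lam p‖ + η))) ∧
      ∀ η : ℝ, 0 < η → ∃ C : ℝ, 0 < C ∧ ∀ (m : ℕ) (z : ι → ℂ) (p : κ),
        ‖b.repr z p‖ ≤ C * exp (-(m * (log⁺ ‖lam p‖ - η))) * (‖z‖ + ‖(f ^ m) z‖) := by
  classical
  set S := f.charpoly.roots.toFinset with hS
  set A : S → Submodule ℂ (ι → ℂ) := fun i => f.maxGenEigenspace (i : ℂ) with hA
  have hne0 : f.charpoly ≠ 0 := f.charpoly_monic.ne_zero
  have htop : iSup A = ⊤ := by
    rw [eq_top_iff, ← Module.End.iSup_maxGenEigenspace_eq_top f]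
    refine iSup_le fun μ => ?_
    by_cases h : μ ∈ S
    · exact le_iSup A ⟨μ, h⟩
    · refine le_of_eq_of_le ?_ bot_le
      refine Submodule.finrank_eq_zero.1 ?_
      rw [LinearMap.finrank_maxGenEigenspace_eq, Polynomial.rootMultiplicity_eq_zero]
      exact fun hroot => h (Multiset.mem_toFinset.2 ((mem_roots hne0).2 hroot))
  have hint : DirectSum.IsInternal A :=
    DirectSum.isInternal_submodule_of_iSupIndep_of_iSup_eq_top
      ((Module.End.independent_maxGenEigenspace f).comp Subtype.val_injective) htop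
  set v := fun i => Module.finBasis ℂ (A i)
  set κ := Σ i : S, Fin (finrank ℂ (A i))
  set b : Basis κ ℂ (ι → ℂ) := hint.collectedBasis v with hb
  set lam : κ → ℂ := fun p => (p.1 : ℂ)
  set d := finrank ℂ (ι → ℂ)
  have hmem : ∀ p : κ, b p ∈ A p.1 := fun p => hint.collectedBasis_mem v p
  have hkill : ∀ (i : S) (x : ι → ℂ), x ∈ A i → ((f - (i : ℂ) • 1) ^ d) x = 0 := fun i x hx => by
    change x ∈ f.maxGenEigenspace (i : ℂ) at hx
    rw [Module.End.maxGenEigenspace_eq_genEigenspace_finrank, Module.End.mem_genEigenspace_nat,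
      LinearMap.mem_ker] at hx
    exact hx
  have hpow : ∀ (m : ℕ) (i : S) (x : ι → ℂ), x ∈ A i → (f ^ m) x ∈ A i := fun m i x hx =>
    Module.End.mapsTo_maxGenEigenspace_of_comm ((Commute.refl f).pow_right m) (i : ℂ) hx
  -- `κ` has a representative of each eigenvalue as often as its multiplicity
  have hsum : ∑ p, log⁺ ‖lam p‖ = (f.charpoly.roots.map fun z => log⁺ ‖z‖).sum := by
    rw [Finset.sum_multiset_map_count, ← hS, Fintype.sum_sigma, ← Finset.sum_coe_sort S]
    refine Finset.sum_congr rfl fun i _ => ?_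
    change ∑ _y : Fin (finrank ℂ (f.maxGenEigenspace (i : ℂ))), log⁺ ‖(i : ℂ)‖ = _
    rw [Finset.sum_const, Finset.card_univ, Fintype.card_fin,
      LinearMap.finrank_maxGenEigenspace_eq, count_roots]
  refine ⟨κ, inferInstance, b, lam, hsum, ?_, ?_⟩
  · intro η hη
    obtain ⟨P, hP, hPle⟩ := exists_pow_le_exp d hη
    have h : ∀ p : κ, ∃ C : ℝ, 0 ≤ C ∧ ∀ k : ℕ,
        ‖(f ^ k) (b p)‖ ≤ C * ((k : ℝ) + 1) ^ d * exp (log⁺ ‖lam p‖) ^ k := fun p =>
      norm_pow_apply_le (hkill p.1 _ (hmem p)) (exp_pos _) (by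
        rw [Real.posLog_eq_log_max_one (norm_nonneg _), Real.exp_log (by positivity)]
        exact le_max_right _ _)
    choose C hC0 hC using h
    refine ⟨(∑ p, C p + 1) * P, mul_pos (by
      have := Finset.sum_nonneg fun p (_ : p ∈ Finset.univ) => hC0 p
      linarith) hP, fun k p => (hC p k).trans ?_⟩
    have hle : C p ≤ ∑ q, C q + 1 :=
      (Finset.single_le_sum (fun q _ => hC0 q) (Finset.mem_univ p)).trans (le_add_of_nonneg_right zero_le_one)
    rw [← Real.exp_nat_mul, mul_add, Real.exp_add]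
    calc C p * ((k : ℝ) + 1) ^ d * exp (k * log⁺ ‖lam p‖)
        ≤ (∑ q, C q + 1) * (P * exp (k * η)) * exp (k * log⁺ ‖lam p‖) := by
          gcongr
          · exact (hC0 p).trans hle
          · exact hPle k
      _ = _ := by ring
  intro η hη
  obtain ⟨P, hP, hPle⟩ := exists_pow_le_exp d hη
  have hcoord : ∀ p : κ, ∃ c : ℝ, 0 ≤ c ∧ ∀ z, ‖b.coord p z‖ ≤ c * ‖z‖ := fun p =>
    ⟨‖LinearMap.toContinuousLinearMap (b.coord p)‖, norm_nonneg _,
      fun z => (LinearMap.toContinuousLinearMap (b.coord p)).le_opNorm z⟩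
  choose c hc0 hc using hcoord
  have key : ∀ p : κ, ∃ C : ℝ, 0 ≤ C ∧ ∀ (m : ℕ) (z : ι → ℂ),
      ‖b.repr z p‖ ≤ C * exp (-(m * (log⁺ ‖lam p‖ - η))) * (‖z‖ + ‖(f ^ m) z‖) := by
    intro p
    rcases le_or_gt ‖lam p‖ 1 with hsmall | hbig
    · refine ⟨c p, hc0 p, fun m z => ?_⟩
      rw [show log⁺ ‖lam p‖ = 0 from (Real.posLog_eq_zero_iff _).2 (by rwa [abs_norm]), zero_sub,
        mul_neg, neg_neg]
      calc ‖b.repr z p‖ ≤ c p * ‖z‖ := hc p z
        _ ≤ c p * 1 * (‖z‖ + ‖(f ^ m) z‖) := by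
          rw [mul_one]
          exact mul_le_mul_of_nonneg_left (le_add_of_nonneg_right (norm_nonneg _)) (hc0 p)
        _ ≤ _ := by
          gcongr
          · exact hc0 p
          · exact Real.one_le_exp (by positivity)
    have hμ : lam p ≠ 0 := norm_pos_iff.1 (zero_lt_one.trans hbig)
    obtain ⟨g, hgf, hg⟩ := exists_inverse f hμ d
    set block := Finset.univ.filter fun q : κ => q.1 = p.1
    have hgrow : ∀ q ∈ block, ∃ C : ℝ, 0 ≤ C ∧ ∀ m : ℕ,
        ‖(g ^ m) (b q)‖ ≤ C * ((m : ℝ) + 1) ^ d * ‖lam p‖⁻¹ ^ m := fun q hq => by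
      have hqp : q.1 = p.1 := (Finset.mem_filter.1 hq).2
      have hq' := (hg (b q) (hkill p.1 _ (hqp ▸ hmem q))).2
      exact norm_pow_apply_le hq' (inv_pos.2 (zero_lt_one.trans hbig)) (by rw [norm_inv])
    choose! C hC0 hC using hgrow
    set proj : (ι → ℂ) →ₗ[ℂ] (ι → ℂ) := ∑ q ∈ block, (b.coord q).smulRight (b q)
    have hproj : ∀ (i : S) (x : ι → ℂ), x ∈ A i → proj x = if i = p.1 then x else 0 := by
      intro i x hx
      simp only [proj, LinearMap.sum_apply, LinearMap.smulRight_apply, Basis.coord_apply]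
      split_ifs with hi
      · conv_rhs => rw [← b.sum_repr x]
        refine Finset.sum_subset (Finset.subset_univ _) fun q _ hq => ?_
        obtain ⟨j, a⟩ := q
        rw [hb, hint.collectedBasis_repr_of_mem_ne v (i := i) ?_ hx, zero_smul]
        exact fun e => hq (Finset.mem_filter.2 ⟨Finset.mem_univ _, e.symm.trans hi⟩)
      · refine Finset.sum_eq_zero fun q hq => ?_
        obtain ⟨j, a⟩ := q
        rw [hb, hint.collectedBasis_repr_of_mem_ne v (i := i) ?_ hx, zero_smul]
        exact fun e => hi (e.trans (Finset.mem_filter.1 hq).2)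
    have hinv : ∀ (m : ℕ) (x : ι → ℂ), x ∈ A p.1 → (g ^ m) ((f ^ m) x) = x := by
      intro m
      induction m with
      | zero => intro x _; simp
      | succ m ih =>
        intro x hx
        rw [pow_succ, pow_succ', Module.End.mul_apply, Module.End.mul_apply,
          (hg _ (hkill p.1 _ (hpow m p.1 x hx))).1, ih x hx]
    have hid : ∀ (m : ℕ) (z : ι → ℂ), b.coord p z = b.coord p ((g ^ m) (proj ((f ^ m) z))) := by
      intro m z
      refine LinearMap.congr_fun (b.ext (f₂ := (b.coord p).comp ((g ^ m).comp (proj.comp (f ^ m))))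
        fun r => ?_) z
      simp only [LinearMap.comp_apply, hproj r.1 _ (hpow m r.1 _ (hmem r))]
      split_ifs with hr
      · rw [hinv m _ (hr ▸ hmem r)]
      · rw [map_zero, map_zero, Basis.coord_apply, Basis.repr_self,
          Finsupp.single_eq_of_ne (fun e => hr (by rw [e]))]
    refine ⟨c p * (∑ q ∈ block, c q * C q) * P, by
      have := Finset.sum_nonneg fun q (hq : q ∈ block) => mul_nonneg (hc0 q) (hC0 q hq)
      have := hc0 p
      positivity, fun m z => ?_⟩
    rw [← Basis.coord_apply, hid m z]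
    set y := (f ^ m) z
    have hy : (g ^ m) (proj y) = ∑ q ∈ block, b.coord q y • (g ^ m) (b q) := by
      simp only [proj, LinearMap.sum_apply, LinearMap.smulRight_apply, map_sum, map_smul]
    have hexp : ((m : ℝ) + 1) ^ d * ‖lam p‖⁻¹ ^ m ≤ P * exp (-(m * (log⁺ ‖lam p‖ - η))) := by
      rw [Real.posLog_eq_log (by rw [abs_norm]; exact hbig.le), mul_sub, neg_sub, Real.exp_sub,
        Real.exp_nat_mul (log ‖lam p‖), Real.exp_log (zero_lt_one.trans hbig), inv_pow,
        mul_div_assoc', ← div_eq_mul_inv]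
      exact div_le_div_of_nonneg_right (hPle m) (by positivity)
    calc ‖b.coord p ((g ^ m) (proj y))‖ ≤ c p * ‖(g ^ m) (proj y)‖ := hc p _
      _ ≤ c p * ∑ q ∈ block, (c q * ‖y‖) * (C q * (((m : ℝ) + 1) ^ d * ‖lam p‖⁻¹ ^ m)) := by
          refine mul_le_mul_of_nonneg_left ?_ (hc0 p)
          rw [hy]
          refine (norm_sum_le _ _).trans (Finset.sum_le_sum fun q hq => ?_)
          rw [norm_smul, ← mul_assoc (C q)]
          exact mul_le_mul (hc q y) (hC q hq m) (norm_nonneg _) (mul_nonneg (hc0 q) (norm_nonneg _))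
      _ = c p * (∑ q ∈ block, c q * C q) * (((m : ℝ) + 1) ^ d * ‖lam p‖⁻¹ ^ m) * ‖y‖ := by
          rw [Finset.mul_sum, Finset.mul_sum, Finset.sum_mul, Finset.sum_mul]
          exact Finset.sum_congr rfl fun q _ => by ring
      _ ≤ c p * (∑ q ∈ block, c q * C q) * (P * exp (-(m * (log⁺ ‖lam p‖ - η)))) *
            (‖z‖ + ‖y‖) := by
          have h0 := Finset.sum_nonneg fun q (hq : q ∈ block) => mul_nonneg (hc0 q) (hC0 q hq)
          have := hc0 p
          gcongr
          exact le_add_of_nonneg_left (norm_nonneg _)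
      _ = _ := by ring
  choose C hC0 hC using key
  refine ⟨∑ p, C p + 1, by
    have := Finset.sum_nonneg fun p (_ : p ∈ Finset.univ) => hC0 p
    linarith, fun m z p => (hC p m z).trans ?_⟩
  gcongr
  exact (Finset.single_le_sum (fun q _ => hC0 q) (Finset.mem_univ p)).trans
    (le_add_of_nonneg_right zero_le_one)

end FA.ToralEntropy

end
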