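import Mathlib.Analysis.Normed.Module.Basic
import Mathlib.Analysis.Complex.Basic
import Mathlib.Analysis.SpecialFunctions.Exp
import Mathlib.RingTheory.Polynomial.Basic
import Mathlib.Algebra.Module.LinearMap.End
import Mathlib.Algebra.Polynomial.AlgebraMap
import Mathlib.RingTheory.Coprime.Lemmas
import Mathlib.Algebra.Polynomial.Div
import Mathlib.Algebra.Polynomial.RingDivision

/-!
# Growth of powers on a generalised eigenvector

On `ker (f - μ) ^ d` the powers of `f` grow like `‖μ‖ ^ k` up to a polynomial, and for `μ ≠ 0` a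
polynomial in `f` inverts `f` there and has the eigenvalue `μ⁻¹`.
-/

set_option autoImplicit false

noncomputable section

namespace FA.ToralEntropy

open Polynomial

variable {E : Type*} [SeminormedAddCommGroup E] [NormedSpace ℂ E]

/-- **Polynomial times geometric growth.** -/
theorem norm_pow_apply_le {f : Module.End ℂ E} {μ : ℂ} {d : ℕ} {v : E}
    (hv : ((f - μ • 1) ^ d) v = 0) {R : ℝ} (hR0 : 0 < R) (hR : ‖μ‖ ≤ R) :
    ∃ C : ℝ, 0 ≤ C ∧ ∀ k : ℕ, ‖(f ^ k) v‖ ≤ C * ((k : ℝ) + 1) ^ d * R ^ k := by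
  set N := f - μ • (1 : Module.End ℂ E) with hN
  set a : ℕ → ℝ := fun j => ‖(N ^ j) v‖ / R ^ j
  have ha : ∀ j, 0 ≤ a j := fun j => by positivity
  have hzero : ∀ j, d ≤ j → (N ^ j) v = 0 := fun j hj => by
    obtain ⟨e, rfl⟩ := Nat.exists_eq_add_of_le hj
    rw [add_comm, pow_add, Module.End.mul_apply, hv, map_zero]
  refine ⟨∑ j ∈ Finset.range d, a j, Finset.sum_nonneg fun j _ => ha j, fun k => ?_⟩
  have hexp : (f ^ k) v = ∑ j ∈ Finset.range (k + 1), ((k.choose j : ℂ) * μ ^ (k - j)) • (N ^ j) v := by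
    have hc : Commute N (μ • 1) := (Commute.one_right N).smul_right μ
    conv_lhs => rw [show f = N + μ • 1 by rw [hN, sub_add_cancel]]
    rw [hc.add_pow, LinearMap.sum_apply]
    refine Finset.sum_congr rfl fun j _ => ?_
    rw [smul_pow, one_pow, mul_smul_comm, mul_one, ← nsmul_eq_mul', LinearMap.smul_apply,
      LinearMap.smul_apply, ← Nat.cast_smul_eq_nsmul ℂ, smul_smul]
  have hterm : ∀ j ∈ Finset.range (k + 1), ‖((k.choose j : ℂ) * μ ^ (k - j)) • (N ^ j) v‖ ≤
      a j * (((k : ℝ) + 1) ^ d * R ^ k) := by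
    intro j hj
    rw [Finset.mem_range] at hj
    rcases le_or_gt d j with hdj | hdj
    · rw [hzero j hdj, smul_zero, norm_zero]
      have := ha j
      positivity
    rw [norm_smul, norm_mul, norm_pow, Complex.norm_natCast]
    have h1 : (k.choose j : ℝ) ≤ ((k : ℝ) + 1) ^ d := by
      calc (k.choose j : ℝ) ≤ (k : ℝ) ^ j := by exact_mod_cast Nat.choose_le_pow k j
        _ ≤ ((k : ℝ) + 1) ^ j := pow_le_pow_left₀ (Nat.cast_nonneg k) (by linarith) j
        _ ≤ _ := pow_le_pow_right₀ (by linarith [Nat.cast_nonneg (α := ℝ) k]) hdj.le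
    have h2 : ‖μ‖ ^ (k - j) ≤ R ^ k / R ^ j := by
      rw [← pow_sub₀ _ hR0.ne' (by omega : j ≤ k) |>.trans (div_eq_mul_inv _ _).symm]
      exact pow_le_pow_left₀ (norm_nonneg _) hR _
    calc (k.choose j : ℝ) * ‖μ‖ ^ (k - j) * ‖(N ^ j) v‖
        ≤ ((k : ℝ) + 1) ^ d * (R ^ k / R ^ j) * ‖(N ^ j) v‖ := by gcongr
      _ = _ := by simp only [a]; ring
  rw [hexp, mul_assoc]
  refine (norm_sum_le _ _).trans ((Finset.sum_le_sum hterm).trans ?_)
  rw [← Finset.sum_mul]
  refine mul_le_mul_of_nonneg_right ?_ (by positivity)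
  rcases le_total (k + 1) d with h | h
  · exact Finset.sum_le_sum_of_subset_of_nonneg (Finset.range_mono h) fun j _ _ => ha j
  · refine le_of_eq (Finset.sum_subset (Finset.range_mono h) fun j _ hj => ?_).symm
    rw [Finset.mem_range, not_lt] at hj
    simp [a, hzero j hj]

/-- **The inverse on a generalised eigenspace.** -/
theorem exists_inverse (f : Module.End ℂ E) {μ : ℂ} (hμ : μ ≠ 0) (d : ℕ) :
    ∃ g : Module.End ℂ E, Commute g f ∧
      ∀ v, ((f - μ • 1) ^ d) v = 0 → g (f v) = v ∧ ((g - μ⁻¹ • 1) ^ d) v = 0 := by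
  rcases Nat.eq_zero_or_pos d with rfl | hd
  · exact ⟨1, Commute.one_left f, fun v hv => by simp_all⟩
  set P : ℂ[X] := X - C μ
  have hcop : IsCoprime (X : ℂ[X]) (P ^ d) := by
    refine IsCoprime.pow_right ?_
    simpa using isCoprime_X_sub_C_of_isUnit_sub (R := ℂ) (a := 0) (b := μ) (by simpa using hμ)
  obtain ⟨a, b, hab⟩ := hcop
  have haev : aeval f P = f - μ • 1 := by
    simp [P, Algebra.algebraMap_eq_smul_one]
  have hroot : a.eval μ = μ⁻¹ := by
    have h := congrArg (Polynomial.eval μ) hab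
    simp [P, zero_pow hd.ne'] at h
    exact eq_inv_of_mul_eq_one_left h
  obtain ⟨c, hc⟩ : P ∣ a - C μ⁻¹ := dvd_iff_isRoot.2 (by simp [IsRoot, hroot])
  refine ⟨aeval f a, ?_, fun v hv => ⟨?_, ?_⟩⟩
  · conv_rhs => rw [← aeval_X (R := ℂ) f]
    exact (Commute.all a X).map (aeval f)
  · have h := congrArg (fun q => aeval f q v) hab
    simp only [map_add, map_mul, map_pow, haev, aeval_X, map_one, LinearMap.add_apply,
      Module.End.mul_apply, hv, map_zero, add_zero, Module.End.one_apply] at h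
    exact h
  · have h : (aeval f a - μ⁻¹ • 1) ^ d = aeval f (c ^ d * P ^ d) := by
      rw [← mul_pow, mul_comm c P, ← hc, map_pow, map_sub, aeval_C, Algebra.algebraMap_eq_smul_one]
    rw [h, map_mul, map_pow _ P, haev, Module.End.mul_apply, hv, map_zero]

/-- A power of `k + 1` is dominated by an exponential. -/
theorem exists_pow_le_exp (d : ℕ) {η : ℝ} (hη : 0 < η) :
    ∃ C : ℝ, 0 < C ∧ ∀ k : ℕ, ((k : ℝ) + 1) ^ d ≤ C * Real.exp (k * η) := by
  set a := max 1 ((d : ℝ) / η)
  refine ⟨a ^ d, by positivity, fun k => ?_⟩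
  rcases Nat.eq_zero_or_pos d with rfl | hd
  · simp only [pow_zero, one_mul]
    exact Real.one_le_exp (by positivity)
  have hd' : (0 : ℝ) < d := Nat.cast_pos.2 hd
  have h1 : (k : ℝ) + 1 ≤ a * (1 + k * η / d) := by
    have e1 : (1 : ℝ) ≤ a := le_max_left _ _
    have e2 : (1 : ℝ) ≤ a * (η / d) := by
      calc (1 : ℝ) = (d / η) * (η / d) := by field_simp
        _ ≤ _ := mul_le_mul_of_nonneg_right (le_max_right _ _) (by positivity)
    calc (k : ℝ) + 1 ≤ a * (η / d) * k + a := add_le_add (le_mul_of_one_le_left (by positivity) e2) e1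
      _ = _ := by ring
  calc ((k : ℝ) + 1) ^ d ≤ (a * (1 + k * η / d)) ^ d := pow_le_pow_left₀ (by positivity) h1 d
    _ ≤ a ^ d * (Real.exp (k * η / d)) ^ d := by
      rw [mul_pow]
      gcongr
      linarith [Real.add_one_le_exp ((k : ℝ) * η / d)]
    _ = _ := by
      rw [← Real.exp_nat_mul]
      congr 2
      field_simp

end FA.ToralEntropy

end
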