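import Fermat.Agent.ToralEntropy.Main
import Mathlib.NumberTheory.MahlerMeasure
import Mathlib.LinearAlgebra.Matrix.Charpoly.Minpoly
import Mathlib.RingTheory.AdjoinRoot

/-!
# Lehmer's question as a question on entropies

Every monic integer polynomial is the characteristic polynomial of an integer matrix, so the
entropies of toral endomorphisms are the logarithmic Mahler measures of such polynomials.
-/

set_option autoImplicit false

noncomputable section

namespace FA.ToralEntropy

open Polynomial Dynamics Set Real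

variable {ι : Type*} [Fintype ι] [DecidableEq ι]

/-- The complex Mahler measure of an integer polynomial. -/
def measureZ (f : ℤ[X]) : ℝ := (f.map (Int.castRingHom ℂ)).mahlerMeasure

theorem one_le_measureZ {f : ℤ[X]} (hf : f ≠ 0) : 1 ≤ measureZ f :=
  one_le_mahlerMeasure_of_ne_zero hf

theorem entropy_eq_log (A : Matrix ι ι ℤ) :
    coverEntropy (toral A) univ = ((log (measureZ A.charpoly) : ℝ) : EReal) := by
  rw [coverEntropy_toral, entropyValue, logMahlerMeasure_eq_log_MahlerMeasure]
  rfl

theorem entropy_eq_zero_iff_measureZ (A : Matrix ι ι ℤ) :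
    coverEntropy (toral A) univ = 0 ↔ measureZ A.charpoly = 1 := by
  have hM := one_le_measureZ A.charpoly_monic.ne_zero
  rw [entropy_eq_log, EReal.coe_eq_zero, Real.log_eq_zero]
  constructor
  · rintro (h | h | h) <;> linarith
  · exact fun h => Or.inr (Or.inl h)

/-- **A monic integer polynomial is the characteristic polynomial of an integer matrix.** -/
theorem exists_matrix_charpoly {f : ℤ[X]} (hf : f.Monic) :
    ∃ A : Matrix (Fin f.natDegree) (Fin f.natDegree) ℤ, A.charpoly = f := by
  have hmin : minpoly ℤ (AdjoinRoot.root f) = f := by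
    refine (minpoly.unique' ℤ _ hf (by rw [AdjoinRoot.aeval_eq, AdjoinRoot.mk_self])
      fun q hq => ?_).symm
    refine or_iff_not_imp_left.2 fun h0 h => hf.not_dvd_of_degree_lt h0 hq ?_
    rwa [AdjoinRoot.aeval_eq, AdjoinRoot.mk_eq_zero] at h
  exact ⟨Algebra.leftMulMatrix (AdjoinRoot.powerBasis' hf).basis (AdjoinRoot.powerBasis' hf).gen,
    (charpoly_leftMulMatrix (AdjoinRoot.powerBasis' hf)).trans hmin⟩

/-- **Every monic Mahler measure is an entropy.** -/
theorem exists_entropy_eq {f : ℤ[X]} (hf : f.Monic) :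
    ∃ A : Matrix (Fin f.natDegree) (Fin f.natDegree) ℤ, A.charpoly = f ∧
      coverEntropy (toral A) univ = ((f.map (Int.castRingHom ℂ)).logMahlerMeasure : EReal) := by
  obtain ⟨A, hA⟩ := exists_matrix_charpoly hf
  refine ⟨A, hA, ?_⟩
  rw [coverEntropy_toral, entropyValue, hA]

/-- **Lehmer's conjecture is a gap in the entropies.** -/
theorem lehmer_iff_gap :
    (∃ c : ℝ, 1 < c ∧ ∀ f : ℤ[X], f ≠ 0 → measureZ f ≠ 1 → c ≤ measureZ f) ↔
      ∃ ε : ℝ, 0 < ε ∧ ∀ (d : ℕ) (A : Matrix (Fin d) (Fin d) ℤ),
        coverEntropy (toral A) univ ≠ 0 → (ε : EReal) ≤ coverEntropy (toral A) univ := by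
  constructor
  · rintro ⟨c, hc, h⟩
    refine ⟨log c, Real.log_pos hc, fun d A hA => ?_⟩
    rw [Ne, entropy_eq_zero_iff_measureZ] at hA
    rw [entropy_eq_log, EReal.coe_le_coe_iff]
    exact Real.log_le_log (zero_lt_one.trans hc) (h _ A.charpoly_monic.ne_zero hA)
  · rintro ⟨ε, hε, h⟩
    refine ⟨min 2 (exp ε), lt_min one_lt_two (Real.one_lt_exp_iff.2 hε), fun f hf hne => ?_⟩
    have hlead : ((|f.leadingCoeff| : ℤ) : ℝ) ≤ measureZ f := by
      refine le_trans ?_ (leadingCoeff_le_mahlerMeasure _)
      rw [leadingCoeff_map_of_injective (Int.castRingHom ℂ).injective_int, eq_intCast,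
        Complex.norm_intCast, Int.cast_abs]
    rcases le_or_gt 2 |f.leadingCoeff| with h2 | h2
    · refine (min_le_left _ _).trans (le_trans ?_ hlead)
      exact_mod_cast h2
    have habs : |f.leadingCoeff| = 1 := by
      have := abs_pos.2 (leadingCoeff_ne_zero.2 hf)
      omega
    set g := C f.leadingCoeff * f
    have hg : g.Monic := by
      rw [Monic, leadingCoeff_mul, leadingCoeff_C, ← abs_mul_abs_self f.leadingCoeff, habs, one_mul]
    have hgf : measureZ g = measureZ f := by
      rw [measureZ, Polynomial.map_mul, Polynomial.map_C, mahlerMeasure_mul, mahlerMeasure_const,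
        eq_intCast, Complex.norm_intCast, ← Int.cast_abs, habs, Int.cast_one, one_mul]
      rfl
    obtain ⟨A, hA⟩ := exists_matrix_charpoly hg
    have hA' := h _ A (by rwa [Ne, entropy_eq_zero_iff_measureZ, hA, hgf])
    rw [entropy_eq_log, EReal.coe_le_coe_iff, hA, hgf] at hA'
    refine (min_le_right _ _).trans ?_
    rwa [← Real.le_log_iff_exp_le (zero_lt_one.trans_le (one_le_measureZ hf))]

/-- **The entropy vanishes iff the nonzero eigenvalues are roots of unity.** -/
theorem entropy_eq_zero_iff (A : Matrix ι ι ℤ) :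
    coverEntropy (toral A) univ = 0 ↔
      ∀ z ∈ A.charpoly.aroots ℂ, z ≠ 0 → ∃ n : ℕ, 0 < n ∧ z ^ n = 1 := by
  constructor
  · intro h z hz hz0
    exact pow_eq_one_of_mahlerMeasure_eq_one ((entropy_eq_zero_iff_measureZ A).1 h) hz0 hz
  · intro h
    rw [coverEntropy_toral, EReal.coe_eq_zero, entropyValue,
      logMahlerMeasure_eq_log_leadingCoeff_add_sum_log_roots,
      (A.charpoly_monic.map (Int.castRingHom ℂ)).leadingCoeff, norm_one, log_one, zero_add]
    refine Multiset.sum_eq_zero fun x hx => ?_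
    obtain ⟨z, hz, rfl⟩ := Multiset.mem_map.1 hx
    rw [Real.posLog_eq_zero_iff, abs_norm]
    rcases eq_or_ne z 0 with rfl | hz0
    · simp
    · obtain ⟨n, hn, hzn⟩ := h z hz hz0
      exact (Complex.norm_eq_one_of_pow_eq_one hzn hn.ne').le

end FA.ToralEntropy

end
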