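import Fermat.Agent.ToralEntropy.Volume
import Mathlib.Dynamics.TopologicalEntropy.NetEntropy
import Mathlib.MeasureTheory.Integral.IntervalIntegral.Periodic
import Mathlib.MeasureTheory.Group.Measure

/-!
# The topological entropy of a toral endomorphism

A small Bowen ball of the torus is the image of the one in `ℝ ^ ι`, with the same volume; counting
covers and nets by the invariant probability gives the entropy.
-/

set_option autoImplicit false

noncomputable section

namespace FA.ToralEntropy

open Dynamics MeasureTheory Set Real Filter ExpGrowth UniformSpace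

variable {ι : Type*} [Fintype ι]

/-- The endomorphism of the torus. -/
def toral (A : Matrix ι ι ℤ) (x : ι → UnitAddCircle) : ι → UnitAddCircle :=
  fun i => ∑ j, A i j • x j

/-- The projection to the torus. -/
def proj (v : ι → ℝ) : ι → UnitAddCircle := fun i => (v i : UnitAddCircle)

theorem continuous_toral (A : Matrix ι ι ℤ) : Continuous (toral A) :=
  continuous_pi fun _ => continuous_finsetSum _ fun j _ => (continuous_apply j).zsmul _

theorem toral_sub (A : Matrix ι ι ℤ) (x y : ι → UnitAddCircle) :
    toral A (x - y) = toral A x - toral A y := by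
  funext i
  simp [toral, smul_sub, Finset.sum_sub_distrib]

theorem iterate_toral_sub (A : Matrix ι ι ℤ) (k : ℕ) (x y : ι → UnitAddCircle) :
    (toral A)^[k] (x - y) = (toral A)^[k] x - (toral A)^[k] y := by
  induction k with
  | zero => rfl
  | succ k ih => simp only [Function.iterate_succ_apply', ih, toral_sub]

theorem toral_proj (A : Matrix ι ι ℤ) (v : ι → ℝ) : toral A (proj v) = proj (realMap A v) := by
  funext i
  simp only [toral, proj, realMap, Matrix.mulVecLin_apply, Matrix.mulVec, dotProduct,
    Matrix.map_apply]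
  rw [show ((∑ j, (A i j : ℝ) * v j : ℝ) : UnitAddCircle) = ∑ j, (((A i j : ℝ) * v j : ℝ) : UnitAddCircle)
    from map_sum (QuotientAddGroup.mk' (AddSubgroup.zmultiples (1 : ℝ))) _ _]
  exact Finset.sum_congr rfl fun j _ => by rw [← zsmul_eq_mul]; rfl

theorem iterate_toral_proj (A : Matrix ι ι ℤ) (k : ℕ) (v : ι → ℝ) :
    (toral A)^[k] (proj v) = proj ((realMap A ^ k) v) := by
  induction k with
  | zero => simp
  | succ k ih => rw [Function.iterate_succ_apply', ih, toral_proj, pow_succ', Module.End.mul_apply]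

/-- A bound for one step. -/
def stepBound (A : Matrix ι ι ℤ) : ℝ := (∑ i, ∑ j, |(A i j : ℝ)|) + 1

theorem abs_realMap_le (A : Matrix ι ι ℤ) {v : ι → ℝ} {ε : ℝ} (hε : 0 ≤ ε)
    (hv : ∀ i, |v i| ≤ ε) (i : ι) : |(realMap A v) i| ≤ stepBound A * ε := by
  simp only [realMap, Matrix.mulVecLin_apply, Matrix.mulVec, dotProduct, Matrix.map_apply]
  refine (Finset.abs_sum_le_sum_abs _ _).trans ?_
  calc ∑ j, |(A i j : ℝ) * v j| ≤ ∑ j, |(A i j : ℝ)| * ε :=
        Finset.sum_le_sum fun j _ => by
          rw [abs_mul]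
          exact mul_le_mul_of_nonneg_left (hv j) (abs_nonneg _)
    _ ≤ stepBound A * ε := by
        rw [← Finset.sum_mul]
        refine mul_le_mul_of_nonneg_right ?_ hε
        have := Finset.single_le_sum (f := fun i => ∑ j, |(A i j : ℝ)|)
          (fun i _ => Finset.sum_nonneg fun j _ => abs_nonneg _) (Finset.mem_univ i)
        simp only [stepBound]
        linarith

/-- The entourage of the points at distance below `ε`. -/
def near (ι : Type*) [Fintype ι] (ε : ℝ) : SetRel (ι → UnitAddCircle) (ι → UnitAddCircle) :=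
  {p | dist p.1 p.2 < ε}

theorem mem_ball_near (A : Matrix ι ι ℤ) (n : ℕ) (ε : ℝ) (x y : ι → UnitAddCircle) :
    y ∈ ball x (dynEntourage (toral A) (near ι ε) n) ↔
      ∀ k < n, ‖(toral A)^[k] (y - x)‖ < ε := by
  simp only [mem_ball_dynEntourage, iterate_toral_sub]
  refine forall₂_congr fun k _ => ?_
  show dist _ _ < ε ↔ _
  rw [dist_comm, dist_eq_norm]

/-- **The volume of a Bowen ball of the torus.** -/
theorem volume_ball_near (A : Matrix ι ι ℤ) {n : ℕ} (hn : 1 ≤ n) {ε : ℝ} (hε : 0 < ε)
    (hsmall : stepBound A * ε ≤ 1 / 2) (x : ι → UnitAddCircle) :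
    volume (ball x (dynEntourage (toral A) (near ι ε) n)) = volume (bowen A n ε) := by
  have hB : IsOpen (ball (0 : ι → UnitAddCircle) (dynEntourage (toral A) (near ι ε) n)) := by
    have : ball (0 : ι → UnitAddCircle) (dynEntourage (toral A) (near ι ε) n) =
        ⋂ k ∈ Set.Iio n, {y | ‖(toral A)^[k] y‖ < ε} := by
      ext y
      simp [mem_ball_near]
    rw [this]
    exact (Set.finite_Iio n).isOpen_biInter fun k _ =>
      isOpen_lt ((continuous_toral A).iterate k).norm continuous_const
  have hshift : ball x (dynEntourage (toral A) (near ι ε) n) =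
      (fun y => y - x) ⁻¹' ball 0 (dynEntourage (toral A) (near ι ε) n) := by
    ext y
    simp [mem_ball_near]
  rw [hshift, (measurePreserving_sub_right volume x).measure_preimage hB.measurableSet.nullMeasurableSet]
  set cube : Set (ι → ℝ) := univ.pi fun _ => Ioc (-(1 / 2) : ℝ) (-(1 / 2) + 1)
  have hproj : MeasurePreserving (proj : (ι → ℝ) → ι → UnitAddCircle) (volume.restrict cube) volume := by
    rw [volume_pi, Measure.restrict_pi_pi]
    exact measurePreserving_pi _ _ fun _ => UnitAddCircle.measurePreserving_mk _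
  rw [← hproj.measure_preimage hB.measurableSet.nullMeasurableSet,
    Measure.restrict_apply (hproj.measurable hB.measurableSet)]
  congr 1
  have hnorm : ∀ (w : ι → ℝ) {δ : ℝ}, 0 < δ → (∀ i, |w i| ≤ 1 / 2) →
      (‖proj w‖ < δ ↔ ∀ i, |w i| < δ) := by
    intro w δ hδ hw
    rw [pi_norm_lt_iff hδ]
    refine forall_congr' fun i => ?_
    rw [show proj w i = ((w i : ℝ) : UnitAddCircle) from rfl,
      (AddCircle.norm_coe_eq_abs_iff (1 : ℝ) one_ne_zero).2 (by rw [abs_one]; exact hw i)]
  have hstep : (1 : ℝ) ≤ stepBound A :=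
    le_add_of_nonneg_left (Finset.sum_nonneg fun i _ => Finset.sum_nonneg fun j _ => abs_nonneg _)
  have hεh : ε ≤ 1 / 2 := (le_mul_of_one_le_left hε.le hstep).trans hsmall
  ext v
  simp only [mem_inter_iff, mem_preimage, mem_ball_near, sub_zero, iterate_toral_proj]
  constructor
  · rintro ⟨hv, hcube⟩
    suffices h : ∀ k < n, ∀ i, |((realMap A ^ k) v) i| < ε from h
    intro k
    induction k with
    | zero =>
      intro hk
      refine (hnorm _ hε fun i => ?_).1 (hv 0 hk)
      have := hcube i (mem_univ i)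
      rw [pow_zero, Module.End.one_apply, abs_le]
      constructor <;> linarith [this.1, this.2]
    | succ k ih =>
      intro hk
      refine (hnorm _ hε fun i => ?_).1 (hv (k + 1) hk)
      rw [pow_succ', Module.End.mul_apply]
      exact (abs_realMap_le A hε.le (fun j => (ih (by omega) j).le) i).trans hsmall
  · intro hv
    refine ⟨fun k hk => (hnorm _ hε fun i => (hv k hk i).le.trans hεh).2 (hv k hk), fun i _ => ?_⟩
    have := hv 0 hn i
    rw [pow_zero, Module.End.one_apply, abs_lt] at this
    constructor <;> linarith [this.1, this.2]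

/-- The torus has total volume one. -/
theorem volume_torus : volume (univ : Set (ι → UnitAddCircle)) = 1 := by
  rw [← pi_univ, volume_pi_pi]
  simp

variable [DecidableEq ι]

/-- The lower bound. -/
theorem le_coverEntropyEntourage (A : Matrix ι ι ℤ) {ε : ℝ} (hε : 0 < ε)
    (hsmall : stepBound A * ε ≤ 1 / 2) {η : ℝ} (hη : 0 < η) :
    ((entropyValue A - η : ℝ) : EReal) ≤ coverEntropyEntourage (toral A) univ (near ι ε) := by
  obtain ⟨c, C, hc, hC, hbound⟩ := exists_bowen_bounds A hε hη
  have hgrow := expGrowthSup_exp (a := ((entropyValue A - η : ℝ) : EReal))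
  rw [← hgrow]
  refine expGrowthSup_of_eventually_ge (b := ENNReal.ofReal C⁻¹) (by
    rw [Ne, ENNReal.ofReal_eq_zero, not_le]
    positivity) ?_
  filter_upwards [eventually_ge_atTop 1] with n hn
  obtain ⟨hfin, -, hup⟩ := hbound n hn
  have hB : ∀ s : Finset (ι → UnitAddCircle), IsDynCoverOf (toral A) univ (near ι ε) n s →
      C⁻¹ * exp ((entropyValue A - η) * n) ≤ s.card := by
    intro s hs
    have hcov : (univ : Set (ι → UnitAddCircle)) ⊆
        ⋃ x ∈ s, ball x (dynEntourage (toral A) (near ι ε) n) := fun y hy => by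
      obtain ⟨x, hx, hxy⟩ := hs hy
      simp only [mem_iUnion]
      refine ⟨x, hx, mem_ball_dynEntourage.2 fun k hk => ?_⟩
      have h : dist ((toral A)^[k] y) ((toral A)^[k] x) < ε := mem_dynEntourage.1 hxy k hk
      rw [dist_comm] at h
      exact h
    have h1 := (measure_mono (μ := volume) hcov).trans (measure_biUnion_finset_le _ _)
    rw [Finset.sum_congr rfl fun x _ => volume_ball_near A hn hε hsmall x, Finset.sum_const,
      nsmul_eq_mul, volume_torus] at h1
    have h2 := ENNReal.toReal_mono (ENNReal.mul_ne_top (ENNReal.natCast_ne_top _) hfin) h1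
    rw [ENNReal.toReal_one, ENNReal.toReal_mul, ENNReal.toReal_natCast] at h2
    rw [inv_mul_le_iff₀ hC, mul_comm (entropyValue A - η)]
    have h3 := h2.trans (mul_le_mul_of_nonneg_left hup (Nat.cast_nonneg _))
    rw [Real.exp_neg, ← mul_assoc, ← div_eq_mul_inv, one_le_div (exp_pos _)] at h3
    linarith
  have hcard : ((⌈C⁻¹ * exp ((entropyValue A - η) * n)⌉₊ : ℕ) : ℕ∞) ≤
      coverMincard (toral A) univ (near ι ε) n :=
    le_iInf₂ fun s hs => Nat.cast_le.2 (Nat.ceil_le.2 (hB s hs))
  rw [show ((entropyValue A - η : ℝ) : EReal) * (n : EReal) =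
    (((entropyValue A - η) * n : ℝ) : EReal) by push_cast; rfl, EReal.exp_coe,
    ← ENNReal.ofReal_mul (by positivity)]
  refine le_trans ?_ (ENat.toENNReal_mono hcard)
  rw [ENat.toENNReal_coe, ← ENNReal.ofReal_natCast]
  exact ENNReal.ofReal_le_ofReal (Nat.le_ceil _)

/-- The upper bound. -/
theorem netEntropyEntourage_le (A : Matrix ι ι ℤ) {ε : ℝ} (hε : 0 < ε)
    (hsmall : stepBound A * ε ≤ 1 / 2) {η : ℝ} (hη : 0 < η) :
    netEntropyEntourage (toral A) univ (near ι ε) ≤ ((entropyValue A + η : ℝ) : EReal) := by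
  obtain ⟨c, C, hc, hC, hbound⟩ := exists_bowen_bounds A hε hη
  have hgrow := expGrowthSup_exp (a := ((entropyValue A + η : ℝ) : EReal))
  rw [← hgrow]
  refine expGrowthSup_le_of_eventually_le (b := ENNReal.ofReal c⁻¹) ENNReal.ofReal_ne_top ?_
  filter_upwards [eventually_ge_atTop 1] with n hn
  obtain ⟨hfin, hlow, -⟩ := hbound n hn
  have hB : ∀ s : Finset (ι → UnitAddCircle), IsDynNetIn (toral A) univ (near ι ε) n s →
      (s.card : ℝ) ≤ c⁻¹ * exp ((entropyValue A + η) * n) := by
    intro s hs
    have hopen : ∀ x, MeasurableSet (ball x (dynEntourage (toral A) (near ι ε) n)) := fun x => by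
      have : ball x (dynEntourage (toral A) (near ι ε) n) =
          ⋂ k ∈ Set.Iio n, {y | ‖(toral A)^[k] (y - x)‖ < ε} := by
        ext y
        simp [mem_ball_near]
      rw [this]
      exact ((Set.finite_Iio n).isOpen_biInter fun k _ => isOpen_lt
        (((continuous_toral A).iterate k).comp (continuous_id.sub continuous_const)).norm
        continuous_const).measurableSet
    have h1 := (measure_biUnion_finset (μ := volume) hs.2 fun x _ => hopen x).ge.trans
      (measure_mono (subset_univ _))
    rw [Finset.sum_congr rfl fun x _ => volume_ball_near A hn hε hsmall x, Finset.sum_const,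
      nsmul_eq_mul, volume_torus] at h1
    have h2 := ENNReal.toReal_mono ENNReal.one_ne_top h1
    rw [ENNReal.toReal_one, ENNReal.toReal_mul, ENNReal.toReal_natCast] at h2
    have h3 := (mul_le_mul_of_nonneg_left hlow (Nat.cast_nonneg _)).trans h2
    rw [Real.exp_neg, ← mul_assoc, ← div_eq_mul_inv, div_le_one (exp_pos _)] at h3
    rw [mul_comm (entropyValue A + η), inv_mul_eq_div, le_div_iff₀ hc]
    exact h3
  have hcard : netMaxcard (toral A) univ (near ι ε) n ≤
      ((⌊c⁻¹ * exp ((entropyValue A + η) * n)⌋₊ : ℕ) : ℕ∞) :=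
    iSup₂_le fun s hs => Nat.cast_le.2 (Nat.le_floor (hB s hs))
  rw [show ((entropyValue A + η : ℝ) : EReal) * (n : EReal) =
    (((entropyValue A + η) * n : ℝ) : EReal) by push_cast; rfl, EReal.exp_coe,
    ← ENNReal.ofReal_mul (by positivity)]
  refine (ENat.toENNReal_mono hcard).trans ?_
  rw [ENat.toENNReal_coe, ← ENNReal.ofReal_natCast]
  exact ENNReal.ofReal_le_ofReal (Nat.floor_le (by positivity))

/-- **The entropy of a toral endomorphism.** -/
theorem coverEntropy_toral (A : Matrix ι ι ℤ) :
    coverEntropy (toral A) univ = (entropyValue A : EReal) := by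
  have hL : 0 < stepBound A := by
    have : (0 : ℝ) ≤ ∑ i, ∑ j, |(A i j : ℝ)| :=
      Finset.sum_nonneg fun i _ => Finset.sum_nonneg fun j _ => abs_nonneg _
    simp only [stepBound]
    linarith
  set ε₀ := 1 / (2 * stepBound A)
  have hε₀ : 0 < ε₀ := by positivity
  have hsmall : stepBound A * ε₀ ≤ 1 / 2 := le_of_eq (by simp only [ε₀]; field_simp)
  refine le_antisymm ?_ ?_
  · rw [coverEntropy_eq_iSup_basis_netEntropyEntourage Metric.uniformity_basis_dist]
    refine iSup₂_le fun ε hε => EReal.le_of_forall_lt_iff_le.1 fun z hz => ?_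
    have hε' : 0 < min ε ε₀ := lt_min hε hε₀
    refine (netEntropyEntourage_antitone (toral A) univ
      (show near ι (min ε ε₀) ⊆ {p | dist p.1 p.2 < ε} from
        fun p hp => (show dist p.1 p.2 < min ε ε₀ from hp).trans_le (min_le_left _ _))).trans ?_
    refine (netEntropyEntourage_le A hε'
      ((mul_le_mul_of_nonneg_left (min_le_right _ _) hL.le).trans hsmall)
      (sub_pos.2 (EReal.coe_lt_coe_iff.1 hz))).trans_eq ?_
    rw [add_sub_cancel]
  · refine EReal.ge_of_forall_gt_iff_ge.1 fun z hz => ?_
    refine le_trans ?_ ((le_coverEntropyEntourage A hε₀ hsmall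
      (sub_pos.2 (EReal.coe_lt_coe_iff.1 hz))).trans
      (coverEntropyEntourage_le_coverEntropy _ _
        (Metric.uniformity_basis_dist.mem_of_mem hε₀)))
    rw [sub_sub_cancel]

end FA.ToralEntropy

end
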