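import Fermat.Agent.ToralEntropy.Eigen
import Mathlib.Analysis.Polynomial.MahlerMeasure
import Mathlib.LinearAlgebra.Charpoly.ToMatrix
import Mathlib.MeasureTheory.Measure.Haar.Unique
import Mathlib.MeasureTheory.Measure.Lebesgue.Complex
import Mathlib.MeasureTheory.Measure.Lebesgue.VolumeOfBalls

/-!
# The volume of a Bowen ball of a linear map

For an integer matrix the volume of the points of `ℝ ^ ι` whose first `n` iterates stay below `ε`
is `exp (- n (h + o 1))`, `h` the logarithmic Mahler measure of the characteristic polynomial: its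
square is the corresponding volume in `ℂ ^ ι`, where the adapted coordinates give polydiscs.
-/

set_option autoImplicit false

noncomputable section

namespace FA.ToralEntropy

open Module MeasureTheory Real Set

variable {ι : Type*} [Fintype ι]

/-- The real linear map of an integer matrix. -/
def realMap (A : Matrix ι ι ℤ) : Module.End ℝ (ι → ℝ) := (A.map (Int.cast : ℤ → ℝ)).mulVecLin

/-- The complex linear map of an integer matrix. -/
def complexMap (A : Matrix ι ι ℤ) : Module.End ℂ (ι → ℂ) :=
  (A.map (Int.cast : ℤ → ℂ)).mulVecLin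

/-- The Bowen ball at the origin. -/
def bowen (A : Matrix ι ι ℤ) (n : ℕ) (ε : ℝ) : Set (ι → ℝ) :=
  {v | ∀ k < n, ∀ i, |((realMap A ^ k) v) i| < ε}

/-- Its complexification. -/
def bowenC (A : Matrix ι ι ℤ) (n : ℕ) (ε : ℝ) : Set (ι → ℂ) :=
  {z | ∀ k < n, ∀ i, |(((complexMap A ^ k) z) i).re| < ε ∧ |(((complexMap A ^ k) z) i).im| < ε}

theorem complexMap_pow_re_im (A : Matrix ι ι ℤ) (k : ℕ) (z : ι → ℂ) :
    (fun i => (((complexMap A ^ k) z) i).re) = (realMap A ^ k) (fun i => (z i).re) ∧
      (fun i => (((complexMap A ^ k) z) i).im) = (realMap A ^ k) (fun i => (z i).im) := by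
  induction k with
  | zero => simp
  | succ k ih =>
    simp only [pow_succ', Module.End.mul_apply]
    rw [← ih.1, ← ih.2]
    constructor <;> funext i <;>
      simp [realMap, complexMap, Matrix.mulVec, dotProduct]

theorem isOpen_bowen (A : Matrix ι ι ℤ) (n : ℕ) (ε : ℝ) : IsOpen (bowen A n ε) := by
  have : bowen A n ε = ⋂ k ∈ Set.Iio n, ⋂ i, {v | |((realMap A ^ k) v) i| < ε} := by
    ext v
    simp [bowen]
  rw [this]
  refine (Set.finite_Iio n).isOpen_biInter fun k _ => isOpen_iInter_of_finite fun i => ?_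
  exact isOpen_lt ((continuous_apply i).comp
    (realMap A ^ k).continuous_of_finiteDimensional).abs continuous_const

/-- The complex volume is the square of the real one. -/
theorem volume_bowenC (A : Matrix ι ι ℤ) (n : ℕ) (ε : ℝ) :
    volume (bowenC A n ε) = volume (bowen A n ε) * volume (bowen A n ε) := by
  have h := (measurePreserving_arrowProdEquivProdArrow ℝ ℝ ι (fun _ => (volume : Measure ℝ))
    (fun _ => (volume : Measure ℝ))).comp
    (volume_preserving_pi (fun _ : ι => Complex.volume_preserving_equiv_real_prod))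
  have hm : MeasurableSet (bowen A n ε ×ˢ bowen A n ε) :=
    (isOpen_bowen A n ε).measurableSet.prod (isOpen_bowen A n ε).measurableSet
  have e := h.measure_preimage hm.nullMeasurableSet
  rw [Measure.prod_prod] at e
  rw [volume_pi (α := fun _ : ι => ℝ), ← e]
  congr 1
  ext z
  simp only [bowenC, bowen, mem_preimage, mem_prod, mem_ofPred_eq]
  constructor
  · intro hz
    refine ⟨fun k hk i => ?_, fun k hk i => ?_⟩
    · show |((realMap A ^ k) fun j => (z j).re) i| < ε
      rw [← (complexMap_pow_re_im A k z).1]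
      exact (hz k hk i).1
    · show |((realMap A ^ k) fun j => (z j).im) i| < ε
      rw [← (complexMap_pow_re_im A k z).2]
      exact (hz k hk i).2
  · intro hz k hk i
    have h1 : |((realMap A ^ k) fun j => (z j).re) i| < ε := hz.1 k hk i
    have h2 : |((realMap A ^ k) fun j => (z j).im) i| < ε := hz.2 k hk i
    rw [← (complexMap_pow_re_im A k z).1] at h1
    rw [← (complexMap_pow_re_im A k z).2] at h2
    exact ⟨h1, h2⟩

/-- The volume of a polydisc. -/
theorem volume_polydisc {κ : Type*} [Fintype κ] {a : ℝ} (ha : 0 ≤ a) (x : κ → ℝ) :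
    (volume (univ.pi fun p => Metric.closedBall (0 : ℂ) (a * exp (x p)))).toReal =
      (π * a ^ 2) ^ Fintype.card κ * exp (∑ p, x p) ^ 2 ∧
    volume (univ.pi fun p => Metric.closedBall (0 : ℂ) (a * exp (x p))) ≠ ⊤ := by
  rw [volume_pi_pi]
  refine ⟨?_, ENNReal.prod_ne_top fun p _ => measure_closedBall_lt_top.ne⟩
  rw [ENNReal.toReal_prod, Real.exp_sum, ← Finset.prod_pow, ← Finset.card_univ, ← Finset.prod_const,
    ← Finset.prod_mul_distrib]
  refine Finset.prod_congr rfl fun p _ => ?_
  rw [Complex.volume_closedBall, ENNReal.toReal_mul, ENNReal.toReal_pow,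
    ENNReal.toReal_ofReal (by positivity), ENNReal.coe_toReal, NNReal.coe_real_pi]
  ring

/-- The exponent `h`. -/
def entropyValue (A : Matrix ι ι ℤ) [DecidableEq ι] : ℝ :=
  (A.charpoly.map (Int.castRingHom ℂ)).logMahlerMeasure

/-- **The volume of Bowen balls.** -/
theorem exists_bowen_bounds [DecidableEq ι] (A : Matrix ι ι ℤ) {ε : ℝ} (hε : 0 < ε) {η : ℝ}
    (hη : 0 < η) :
    ∃ c C : ℝ, 0 < c ∧ 0 < C ∧ ∀ n : ℕ, 1 ≤ n → volume (bowen A n ε) ≠ ⊤ ∧
      c * exp (-(n * (entropyValue A + η))) ≤ (volume (bowen A n ε)).toReal ∧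
      (volume (bowen A n ε)).toReal ≤ C * exp (-(n * (entropyValue A - η))) := by
  classical
  obtain ⟨κ, hκ, b, lam, hsum, hup, hlow⟩ := exists_eigen_coords (complexMap A)
  have hh : entropyValue A = ∑ p, log⁺ ‖lam p‖ := by
    rw [hsum, complexMap, Matrix.charpoly_mulVecLin, entropyValue, ← Matrix.charpoly_map,
      Polynomial.logMahlerMeasure_eq_log_leadingCoeff_add_sum_log_roots,
      (Matrix.charpoly_monic _).leadingCoeff, norm_one, log_one, zero_add]
    rfl
  set K := Fintype.card κ
  set η' := η / ((K : ℝ) + 1)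
  have hη' : 0 < η' := by positivity
  have hKη : (K : ℝ) * η' ≤ η := by
    rw [mul_div_assoc', div_le_iff₀ (by positivity)]
    nlinarith
  obtain ⟨C₁, hC₁, hC₁'⟩ := hup η' hη'
  obtain ⟨C₂, hC₂, hC₂'⟩ := hlow η' hη'
  set e := b.equivFun.toContinuousLinearEquiv
  have hν := Measure.isAddLeftInvariant_eq_smul (Measure.map e (volume : Measure (ι → ℂ)))
    (volume : Measure (κ → ℂ))
  set s := Measure.addHaarScalarFactor (Measure.map e (volume : Measure (ι → ℂ)))
    (volume : Measure (κ → ℂ))
  have hs : 0 < (s : ℝ) := Measure.addHaarScalarFactor_pos_of_isAddHaarMeasure _ _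
  have hpre : ∀ S : Set (κ → ℂ), MeasurableSet S → volume (e ⁻¹' S) = s * volume S := fun S hS => by
    rw [← Measure.map_apply e.continuous.measurable hS, hν]
    rfl
  set a₁ := ε / (C₁ * ((K : ℝ) + 1))
  set a₂ := C₂ * (4 * ε)
  have ha₁ : 0 < a₁ := by positivity
  have ha₂ : 0 < a₂ := by positivity
  refine ⟨√((s : ℝ) * (π * a₁ ^ 2) ^ K),
    √((s : ℝ) * (π * a₂ ^ 2) ^ K) * exp (entropyValue A - η) , by positivity, by positivity,
    fun n hn => ?_⟩
  have hfin : volume (bowen A n ε) ≠ ⊤ := by
    refine ((measure_mono (t := univ.pi fun _ : ι => Ioo (-ε) ε) fun v hv i _ => ?_).trans_lt ?_).ne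
    · have := hv 0 hn i
      rwa [pow_zero, Module.End.one_apply, abs_lt] at this
    · rw [volume_pi_pi]
      exact (ENNReal.prod_ne_top fun i _ => measure_Ioo_lt_top.ne).lt_top
  refine ⟨hfin, ?_⟩
  set V := (volume (bowen A n ε)).toReal
  have hV : (volume (bowenC A n ε)).toReal = V ^ 2 := by
    rw [volume_bowenC, ENNReal.toReal_mul, sq]
  have hCfin : volume (bowenC A n ε) ≠ ⊤ := by
    rw [volume_bowenC]
    exact ENNReal.mul_ne_top hfin hfin
  constructor
  · -- a polydisc inside
    set x : κ → ℝ := fun p => -(n * (log⁺ ‖lam p‖ + η'))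
    have hsub : e ⁻¹' (univ.pi fun p => Metric.closedBall (0 : ℂ) (a₁ * exp (x p))) ⊆
        bowenC A n ε := by
      intro z hz k hk i
      have hnorm : ‖(complexMap A ^ k) z‖ < ε := by
        conv_lhs => rw [← b.sum_repr z, map_sum]
        refine (norm_sum_le _ _).trans_lt ?_
        calc ∑ p, ‖(complexMap A ^ k) (b.repr z p • b p)‖ ≤ ∑ _p : κ, a₁ * C₁ := by
              refine Finset.sum_le_sum fun p _ => ?_
              have hp : ‖b.repr z p‖ ≤ a₁ * exp (x p) := by
                have := hz p (mem_univ p)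
                rwa [mem_closedBall_zero_iff] at this
              rw [map_smul, norm_smul]
              refine (mul_le_mul hp (hC₁' k p) (norm_nonneg _) (by positivity)).trans ?_
              rw [mul_mul_mul_comm, ← Real.exp_add]
              refine mul_le_of_le_one_right (by positivity) (Real.exp_le_one_iff.2 ?_)
              have hkn : (k : ℝ) ≤ n := Nat.cast_le.2 hk.le
              have h0 : 0 ≤ log⁺ ‖lam p‖ + η' := add_nonneg Real.posLog_nonneg hη'.le
              have := mul_le_mul_of_nonneg_right hkn h0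
              simp only [x]
              linarith
          _ = K * (ε / ((K : ℝ) + 1)) := by
              rw [Finset.sum_const, Finset.card_univ, nsmul_eq_mul]
              simp only [a₁, K]
              field_simp
          _ < ε := by
              rw [mul_div_assoc', div_lt_iff₀ (by positivity)]
              nlinarith
      have := (norm_le_pi_norm ((complexMap A ^ k) z) i).trans_lt hnorm
      exact ⟨(Complex.abs_re_le_norm _).trans_lt this, (Complex.abs_im_le_norm _).trans_lt this⟩
    have hle := measure_mono (μ := volume) hsub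
    rw [hpre _ (MeasurableSet.univ_pi fun p => measurableSet_closedBall)] at hle
    have hle' := ENNReal.toReal_mono hCfin hle
    rw [ENNReal.toReal_mul, ENNReal.coe_toReal, hV, (volume_polydisc ha₁.le x).1] at hle'
    have hx : -(n * (entropyValue A + η)) ≤ ∑ p, x p := by
      simp only [x]
      rw [Finset.sum_neg_distrib, ← Finset.mul_sum, Finset.sum_add_distrib, Finset.sum_const,
        Finset.card_univ, nsmul_eq_mul, hh]
      exact neg_le_neg (mul_le_mul_of_nonneg_left (by linarith) (Nat.cast_nonneg n))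
    refine (mul_le_mul_of_nonneg_left (Real.exp_le_exp.2 hx) (Real.sqrt_nonneg _)).trans ?_
    rw [← pow_le_pow_iff_left₀ (by positivity) ENNReal.toReal_nonneg two_ne_zero, mul_pow,
      Real.sq_sqrt (by positivity), mul_assoc]
    exact hle'
  · -- a polydisc outside
    obtain ⟨m, rfl⟩ := Nat.exists_eq_add_of_le hn
    set x : κ → ℝ := fun p => -(m * (log⁺ ‖lam p‖ - η'))
    have hsub : bowenC A (1 + m) ε ⊆
        e ⁻¹' (univ.pi fun p => Metric.closedBall (0 : ℂ) (a₂ * exp (x p))) := by
      intro z hz p _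
      rw [mem_closedBall_zero_iff]
      show ‖b.repr z p‖ ≤ a₂ * exp (x p)
      refine (hC₂' m z p).trans ?_
      have hbd : ∀ k < 1 + m, ‖(complexMap A ^ k) z‖ ≤ 2 * ε := fun k hk =>
        (pi_norm_le_iff_of_nonneg (by positivity)).2 fun i =>
          (Complex.norm_le_abs_re_add_abs_im _).trans (by linarith [(hz k hk i).1, (hz k hk i).2])
      have h0 := hbd 0 (by omega)
      rw [pow_zero, Module.End.one_apply] at h0
      have h1 := hbd m (by omega)
      calc C₂ * exp (x p) * (‖z‖ + ‖(complexMap A ^ m) z‖) ≤ C₂ * exp (x p) * (4 * ε) :=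
            mul_le_mul_of_nonneg_left (by linarith) (by positivity)
        _ = _ := by ring
    have hle := measure_mono (μ := volume) hsub
    rw [hpre _ (MeasurableSet.univ_pi fun p => measurableSet_closedBall)] at hle
    have hle' := ENNReal.toReal_mono
      (ENNReal.mul_ne_top ENNReal.coe_ne_top (volume_polydisc ha₂.le x).2) hle
    rw [ENNReal.toReal_mul, ENNReal.coe_toReal, hV, (volume_polydisc ha₂.le x).1] at hle'
    have hx : ∑ p, x p ≤ -(m * (entropyValue A - η)) := by
      simp only [x]
      rw [Finset.sum_neg_distrib, ← Finset.mul_sum, Finset.sum_sub_distrib, Finset.sum_const,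
        Finset.card_univ, nsmul_eq_mul, hh]
      exact neg_le_neg (mul_le_mul_of_nonneg_left (by linarith) (Nat.cast_nonneg m))
    have hV' : V ≤ √((s : ℝ) * (π * a₂ ^ 2) ^ K) * exp (∑ p, x p) := by
      rw [← pow_le_pow_iff_left₀ ENNReal.toReal_nonneg (by positivity) two_ne_zero, mul_pow,
        Real.sq_sqrt (by positivity), mul_assoc]
      exact hle'
    refine hV'.trans ((mul_le_mul_of_nonneg_left (Real.exp_le_exp.2 hx) (Real.sqrt_nonneg _)).trans
      (le_of_eq ?_))
    rw [mul_assoc, ← Real.exp_add]
    push_cast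
    ring_nf

end FA.ToralEntropy

end
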